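import Mathlib
import Fermat.Prelude.Def_FreyPackage_EigenformResidualAttachment
import Fermat.Prelude.Def_GaloisRep_Residual
import Fermat.Agent.Lib.DivPoly

/-!
# S42 from the statement of S29

`glue` : the verbatim statement of S29 implies S42.

Final file `Fermat/Agent/S42.lean` (tested against a stub of S29): template header plus
`import Fermat.Agent.S29`, `import Fermat.Agent.S42.Glue` and the body
`glue (fun hg _ hp _ _ _ φ => Fermat.Agent.S29.result hg hp φ) P`.
-/

set_option autoImplicit false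

open Polynomial WeierstrassCurve WeierstrassCurve.Affine WeierstrassCurve.Affine.Point

namespace Fermat.Agent.S42

abbrev Qb := AlgebraicClosure ℚ
abbrev GQ := Qb ≃ₐ[ℚ] Qb

/-- trace and determinant from a quadratic characteristic polynomial -/
theorem trace_det_of_charpoly {K V : Type*} [Field K] [AddCommGroup V] [Module K V]
    [Module.Finite K V]
    (h2 : Module.finrank K V = 2) (f : Module.End K V) (a d : K)
    (h : LinearMap.charpoly f = X ^ 2 - C a * X + C d) :
    LinearMap.trace K V f = a ∧ LinearMap.det f = d := by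
  constructor
  · let b := Module.finBasisOfFinrankEq K V h2
    have h1 := Matrix.trace_eq_neg_charpoly_coeff (LinearMap.toMatrix b b f)
    rw [LinearMap.charpoly_toMatrix, h, ← LinearMap.trace_eq_matrix_trace] at h1
    rw [h1]
    simp [coeff_C]
  · have h1 := LinearMap.det_eq_sign_charpoly_coeff f
    rw [h1, h2, h]
    simp

/-- coordinates of a point -/
def coords {W : Affine Qb} : W.Point → Set Qb
  | .zero => ∅
  | .some (x := x) (y := y) _ => {x, y}

theorem coords_finite {W : Affine Qb} (P : W.Point) : (coords P).Finite := by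
  cases P with
  | zero => exact Set.finite_empty
  | some x y h => exact (Set.finite_singleton y).insert x

theorem smul_eq_of_coords {W : Affine ℚ} (σ : GQ) (P : (W⁄Qb).Point)
    (h : ∀ x ∈ coords P, σ x = x) : σ • P = P := by
  cases P with
  | zero => rfl
  | some x y hxy =>
    have hx : σ x = x := h x (by simp [coords])
    have hy : σ y = y := h y (by simp [coords])
    rw [algEquiv_smul_def]
    simp [Point.map, hx, hy]

/-- the `n`-torsion representation of a Weierstrass curve over `ℚ` has finite level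
(`n` odd). -/
theorem torsion_finiteLevel (W : Affine ℚ) {n : ℕ} (hodd : Odd n) (hn : n ≠ 0) :
    ∃ L : IntermediateField ℚ Qb, FiniteDimensional ℚ L ∧
      ∀ σ : GQ, (∀ x ∈ L, σ x = x) →
        galoisRepModuleEnd (S := ℚ) (K := Qb) W n σ = 1 := by
  have hfin : Finite (Submodule.torsionBy ℤ (W⁄Qb).Point (n : ℤ)) :=
    (Fermat.Agent.DivPoly.torsionBy_finite (W⁄Qb) hodd (by exact_mod_cast hn)).1
  let S : Set Qb := ⋃ P : Submodule.torsionBy ℤ (W⁄Qb).Point (n : ℤ), coords (P : (W⁄Qb).Point)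
  have hS : S.Finite := Set.finite_iUnion fun P => coords_finite _
  refine ⟨IntermediateField.adjoin ℚ S, ?_, ?_⟩
  · have : Finite S := hS
    exact IntermediateField.finiteDimensional_adjoin fun x _ =>
      ((AlgebraicClosure.isAlgebraic ℚ).isAlgebraic x).isIntegral
  · intro σ hσ
    ext P
    rw [galoisRepModuleEnd_apply]
    refine smul_eq_of_coords σ _ fun x hx => hσ x ?_
    exact IntermediateField.subset_adjoin ℚ S (Set.mem_iUnion.mpr ⟨P, hx⟩)

/-- the verbatim statement of S29 -/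
def Statement29 : Prop :=
  ∀ {N : ℕ} {g : CuspForm (CongruenceSubgroup.Gamma0 N) 2} (_ : g.IsNormalizedEigenform)
    {p : ℕ} (_ : p.Prime) {k : Type} [Field k] [CharP k p]
    (φ : integralClosure ℤ ℂ →+* k),
    ∃ ρ : ResidualGaloisRep k, ρ.IsAttachedTo g φ ∧
      ∀ ℓ : ℕ, ℓ.Prime → ¬ ℓ ∣ N * p → ρ.IsUnramifiedAt ℓ

theorem glue (h29 : Statement29) (P : FreyPackage) :
    ∀ M : ℕ, 0 < M → P.EigenformResidualAttachmentAt M := by
  intro M _ g hg 𝔪 h𝔪 hp𝔪
  let _ : Field (integralClosure ℤ ℂ ⧸ 𝔪) := Ideal.Quotient.field 𝔪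
  have hchar : CharP (integralClosure ℤ ℂ ⧸ 𝔪) P.p := by
    refine (CharP.charP_iff_prime_eq_zero P.pp).mpr ?_
    have h1 : ((P.p : integralClosure ℤ ℂ ⧸ 𝔪)) = Ideal.Quotient.mk 𝔪 (P.p : integralClosure ℤ ℂ) := by
      simp
    rw [h1]
    exact Ideal.Quotient.eq_zero_iff_mem.mpr hp𝔪
  obtain ⟨ρ, hatt, -⟩ := h29 hg P.pp (Ideal.Quotient.mk 𝔪)
  obtain ⟨L₁, hL₁, hρ⟩ := ρ.factorsThroughFiniteLevel
  obtain ⟨L₂, hL₂, hE⟩ := torsion_finiteLevel P.freyCurve P.hp_odd P.hp0
  have hN : Normal ℚ Qb := normal_iff.mpr fun x =>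
    ⟨((AlgebraicClosure.isAlgebraic ℚ).isAlgebraic x).isIntegral, IsAlgClosed.splits _⟩
  let F : IntermediateField ℚ Qb := IntermediateField.normalClosure ℚ ↥(L₁ ⊔ L₂) Qb
  have hFn : Normal ℚ F := normalClosure.normal ℚ ↥(L₁ ⊔ L₂) Qb
  have hFf : FiniteDimensional ℚ F := by
    have : FiniteDimensional ℚ ↥(L₁ ⊔ L₂) := IntermediateField.finiteDimensional_sup L₁ L₂
    exact normalClosure.is_finiteDimensional ℚ ↥(L₁ ⊔ L₂) Qb
  have hFnf : NumberField F := { to_charZero := inferInstance, to_finiteDimensional := hFf }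
  have hFg : IsGalois ℚ F := {}
  have hle : L₁ ⊔ L₂ ≤ F := IntermediateField.le_normalClosure (L₁ ⊔ L₂)
  have hfix : ∀ σ : GQ, σ ∈ (AlgEquiv.restrictNormalHom (F := ℚ) (K₁ := Qb) F).ker →
      ∀ x ∈ F, σ x = x := by
    intro σ hσ x hx
    have h1 := AlgEquiv.restrictNormal_commutes σ F ⟨x, hx⟩
    have h2 : σ.restrictNormal F = 1 := hσ
    rw [h2] at h1
    exact h1.symm
  refine ⟨integralClosure ℤ ℂ ⧸ 𝔪, inferInstance, ZMod.algebra _ P.p, ρ.V, inferInstance,
    inferInstance, ρ.ρ, Ideal.Quotient.mk 𝔪, F, inferInstance, hFnf, hFg, inferInstance,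
    inferInstance, ?_, ρ.finrank_eq, ?_, ?_, ?_⟩
  · rw [Ideal.mk_ker]
  · intro σ hσ
    refine ⟨?_, ?_⟩
    · exact hE σ fun x hx => hfix σ hσ x (hle (le_sup_right (a := L₁) hx))
    · exact hρ σ fun x hx => hfix σ hσ x (hle (le_sup_left (b := L₂) hx))
  · intro ℓ hℓ hℓM hℓp A hA τ hτ
    have hℓk : (ℓ : integralClosure ℤ ℂ ⧸ 𝔪) ≠ 0 := by
      intro h0
      have := (CharP.cast_eq_zero_iff (integralClosure ℤ ℂ ⧸ 𝔪) P.p ℓ).mp h0
      exact hℓp ((Nat.prime_dvd_prime_iff_eq P.pp hℓ).mp this).symm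
    obtain ⟨a, ha, hc⟩ := hatt ℓ hℓ hℓM hℓk A hA τ hτ
    exact ⟨a, ha, (trace_det_of_charpoly ρ.finrank_eq _ _ _ hc).1⟩
  · intro ℓ hℓ hℓM hℓp A hA τ hτ
    have hℓk : (ℓ : integralClosure ℤ ℂ ⧸ 𝔪) ≠ 0 := by
      intro h0
      have := (CharP.cast_eq_zero_iff (integralClosure ℤ ℂ ⧸ 𝔪) P.p ℓ).mp h0
      exact hℓp ((Nat.prime_dvd_prime_iff_eq P.pp hℓ).mp this).symm
    obtain ⟨a, ha, hc⟩ := hatt ℓ hℓ hℓM hℓk A hA τ hτ
    exact (trace_det_of_charpoly ρ.finrank_eq _ _ _ hc).2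

end Fermat.Agent.S42
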